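import Fermat.Agent.BurgessApplications.Tail

/-!
# Burgess's bounds for `L(s, χ)`

`|L(1/2 + i t, χ)| ≪ (1 + |t|) p ^ (3/16) (log p) ^ 2` and
`|L(1, χ)| ≤ (1/4 + ε) log p` for every nonprincipal character modulo a large prime `p`.
-/

set_option autoImplicit false

noncomputable section

namespace FA.BurgessApplications

open MeasureTheory Filter Topology DirichletCharacter FA.BurgessGeneral
open FA.Siegel (charSum tail)

variable {p : ℕ} [Fact p.Prime] {χ : DirichletCharacter ℂ p}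

theorem one_add_log_le : 1 + Real.log p ≤ 3 * Real.log p := by
  have h2 : (2 : ℝ) ≤ p := Nat.ofNat_le_cast.2 (Fact.out : p.Prime).two_le
  have := Real.log_le_log two_pos h2
  linarith [Real.log_two_gt_d9]

theorem norm_tail_half_le (hχ : χ ≠ 1) {s : ℂ} (hs : s.re = 1 / 2) :
    ‖tail χ s‖ ≤ (burgessConst 2 + 2) * ((1 + Real.log p) ^ 2 * (p : ℝ) ^ ((3 : ℝ) / 16)) := by
  have hp1 : (1 : ℝ) ≤ p := Nat.one_le_cast.2 (Fact.out : p.Prime).one_lt.le
  have hp0 : (0 : ℝ) < p := by linarith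
  obtain ⟨L, hL⟩ : ∃ L, L = 1 + Real.log p := ⟨_, rfl⟩
  have hL1 : 1 ≤ L := hL ▸ one_le_log_factor p
  obtain ⟨P, hP⟩ : ∃ P, P = (p : ℝ) ^ ((3 : ℝ) / 16) := ⟨_, rfl⟩
  have hP1 : 1 ≤ P := hP ▸ Real.one_le_rpow hp1 (by norm_num)
  have hC : 0 ≤ burgessConst 2 := by rw [burgessConst]; positivity
  rw [← hL, ← hP]
  have h₁ : ‖∫ t in Set.Ioc (1 : ℝ) 1, charSum χ t * (t : ℂ) ^ (-(s + 1))‖ ≤ 0 := by simp
  have h₂ : ‖∫ t in Set.Ioc (1 : ℝ) p, charSum χ t * (t : ℂ) ^ (-(s + 1))‖ ≤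
      burgessConst 2 * L * P * Real.log (p / 1) := by
    refine norm_piece_le (e := 1 / 2) one_pos hp1 (fun t ht => ?_) (by rw [hs]; norm_num)
    have ht0 : 0 < t := one_pos.trans ht.1
    rw [charSum_eq_windowSumC]
    refine (norm_windowSumC_le_burgess hχ one_le_two 0 ⌊t⌋₊).trans ?_
    rw [← hL, mul_assoc (burgessConst 2 * L), mul_assoc (burgessConst 2)]
    refine mul_le_mul_of_nonneg_left (mul_le_mul_of_nonneg_left
      ((burgessFn_mono one_le_two p (Nat.cast_nonneg _) (Nat.floor_le ht0.le)).trans (le_of_eq ?_))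
      (by linarith)) hC
    rw [burgessFn, hP, mul_comm]
    norm_num
  have h₃ : ‖∫ t in Set.Ioi (p : ℝ), charSum χ t * (t : ℂ) ^ (-(s + 1))‖ ≤ 2 * L := by
    refine (norm_beyond_le hp0 (by rw [hs]; norm_num) (B := Real.sqrt p * L) fun t _ => ?_).trans
      (le_of_eq ?_)
    · rw [charSum_eq_windowSumC, hL]
      exact norm_windowSumC_le_sqrt hχ 0 _
    · rw [hs, Real.rpow_neg hp0.le, ← Real.sqrt_eq_rpow]
      have : Real.sqrt p ≠ 0 := (Real.sqrt_pos.2 hp0).ne'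
      field_simp
  refine (norm_tail_le_three hχ (by rw [hs]; norm_num) le_rfl hp1 h₁ h₂ h₃).trans ?_
  have hlog : Real.log ((p : ℝ) / 1) ≤ L := by
    rw [div_one, hL]
    linarith
  have e1 : burgessConst 2 * L * P * Real.log ((p : ℝ) / 1) ≤ burgessConst 2 * L * P * L :=
    mul_le_mul_of_nonneg_left hlog (by positivity)
  have e2 : L ≤ L ^ 2 * P := (le_self_pow₀ hL1 two_ne_zero).trans
    (le_mul_of_one_le_right (sq_nonneg _) hP1)
  linarith

/-- **Burgess's subconvexity bound.** -/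
theorem norm_LFunction_half_le (hχ : χ ≠ 1) (t : ℝ) :
    ‖LFunction χ (1 / 2 + t * Complex.I)‖ ≤
      9 * (burgessConst 2 + 2) * (1 + |t|) * ((p : ℝ) ^ ((3 : ℝ) / 16) * Real.log p ^ 2) := by
  have hre : ((1 / 2 : ℂ) + t * Complex.I).re = 1 / 2 := by simp
  rw [FA.Siegel.lfunction_eq hχ (by rw [hre]; norm_num), norm_mul]
  have hn : ‖(1 / 2 : ℂ) + t * Complex.I‖ ≤ 1 + |t| := by
    refine (norm_add_le _ _).trans (add_le_add ?_ (le_of_eq ?_))
    · norm_num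
    · simp
  refine (mul_le_mul hn (norm_tail_half_le hχ hre) (norm_nonneg _) (by positivity)).trans ?_
  have hC : 0 ≤ burgessConst 2 + 2 := by rw [burgessConst]; positivity
  have h := pow_le_pow_left₀ (by linarith [one_le_log_factor p]) (one_add_log_le (p := p)) 2
  have := mul_le_mul_of_nonneg_left h
    (show 0 ≤ (1 + |t|) * (burgessConst 2 + 2) * (p : ℝ) ^ ((3 : ℝ) / 16) by positivity)
  linarith

/-- **`|L(1, χ)| ≤ (1/4 + ε) log p`.** -/
theorem eventually_norm_LFunction_one_le {ε : ℝ} (hε : 0 < ε) :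
    ∀ᶠ p : ℕ in atTop, ∀ [Fact p.Prime] (χ : DirichletCharacter ℂ p), χ ≠ 1 →
      ‖LFunction χ 1‖ ≤ (1 / 4 + ε) * Real.log p := by
  obtain ⟨δ, hδ⟩ : ∃ δ, δ = min ε 1 / 4 := ⟨_, rfl⟩
  have hδ0 : 0 < δ := hδ ▸ div_pos (lt_min hε one_pos) four_pos
  have hδε : δ ≤ ε / 4 := hδ ▸ by gcongr; exact min_le_left _ _
  have hδ1 : δ ≤ 1 / 4 := hδ ▸ by gcongr; exact min_le_right _ _
  obtain ⟨η, hη, hsave⟩ := eventually_norm_windowSumC_le hδ0
  have hlog : ∀ᶠ p : ℕ in atTop, 4 / ε ≤ Real.log p :=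
    (Real.tendsto_log_atTop.comp tendsto_natCast_atTop_atTop).eventually_ge_atTop _
  have hpow : ∀ᶠ p : ℕ in atTop, (p : ℝ) ^ (-η) ≤ ε / 4 :=
    ((tendsto_rpow_neg_atTop hη).comp tendsto_natCast_atTop_atTop).eventually
      (eventually_le_nhds (div_pos hε four_pos))
  filter_upwards [hsave, hlog, hpow] with p hs hlogp hpowp
  intro _ χ hχ
  have hp1 : (1 : ℝ) ≤ p := Nat.one_le_cast.2 (Fact.out : p.Prime).one_lt.le
  have hp0 : (0 : ℝ) < p := by linarith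
  obtain ⟨u, hu⟩ : ∃ u, u = (p : ℝ) ^ (1 / 4 + δ) := ⟨_, rfl⟩
  have hu1 : 1 ≤ u := hu ▸ Real.one_le_rpow hp1 (by linarith)
  obtain ⟨X, hX⟩ : ∃ X : ℕ, X = ⌈u⌉₊ := ⟨_, rfl⟩
  have huX : u ≤ X := hX ▸ Nat.le_ceil u
  have hXp : (X : ℝ) ≤ p := by
    refine Nat.cast_le.2 (hX ▸ Nat.ceil_le.2 (hu ▸ ?_))
    conv_rhs => rw [← Real.rpow_one (p : ℝ)]
    exact Real.rpow_le_rpow_of_exponent_le hp1 (by linarith)
  have h₁ : ‖∫ t in Set.Ioc (1 : ℝ) X, charSum χ t * (t : ℂ) ^ (-((1 : ℂ) + 1))‖ ≤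
      1 * Real.log (X / 1) :=
    norm_piece_le (e := 1) one_pos (hu1.trans huX) (fun t ht => by
      rw [Real.rpow_one, one_mul]
      exact FA.Siegel.norm_charSum_le_self (one_pos.trans ht.1).le) (by simp)
  have h₂ : ‖∫ t in Set.Ioc (X : ℝ) p, charSum χ t * (t : ℂ) ^ (-((1 : ℂ) + 1))‖ ≤
      (p : ℝ) ^ (-η) * Real.log (p / X) := by
    refine norm_piece_le (e := 1) (by linarith) hXp (fun t ht => ?_) (by simp)
    have ht0 : 0 < t := lt_of_lt_of_le (by linarith) ht.1.le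
    rw [charSum_eq_windowSumC, Real.rpow_one, mul_comm]
    refine (hs χ hχ 0 ⌊t⌋₊ ?_).trans
      (mul_le_mul_of_nonneg_right (Nat.floor_le ht0.le) (by positivity))
    rw [← hu]
    exact huX.trans (Nat.cast_le.2 (Nat.le_floor ht.1.le))
  have h₃ : ‖∫ t in Set.Ioi (p : ℝ), charSum χ t * (t : ℂ) ^ (-((1 : ℂ) + 1))‖ ≤ 1 := by
    refine (norm_beyond_le hp0 (by simp) fun t _ => FA.Siegel.norm_charSum_le hχ t).trans
      (le_of_eq ?_)
    rw [Complex.one_re, Real.rpow_neg_one, div_one, mul_inv_cancel₀ hp0.ne']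
  rw [FA.Siegel.lfunction_eq hχ (by simp), one_mul]
  refine (norm_tail_le_three hχ (by simp) (hu1.trans huX) hXp h₁ h₂ h₃).trans ?_
  have hlogX : Real.log ((X : ℝ) / 1) ≤ Real.log 2 + (1 / 4 + δ) * Real.log p := by
    have h := (Nat.ceil_lt_add_one (zero_le_one.trans hu1)).le
    rw [← hX] at h
    rw [div_one, ← Real.log_rpow hp0, ← hu, ← Real.log_mul two_ne_zero (by linarith)]
    exact Real.log_le_log (by linarith) (by linarith)
  have hlogq : (p : ℝ) ^ (-η) * Real.log ((p : ℝ) / X) ≤ ε / 4 * Real.log p := by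
    have hX0 : (1 : ℝ) ≤ X := hu1.trans huX
    exact mul_le_mul hpowp (Real.log_le_log (div_pos hp0 (by linarith)) (div_le_self hp0.le hX0))
      (Real.log_nonneg (by rwa [le_div_iff₀ (by linarith), one_mul])) (by linarith)
  have h4 : 4 ≤ ε * Real.log p := by
    rw [div_le_iff₀ hε] at hlogp
    linarith
  have h5 := mul_le_mul_of_nonneg_right hδε (Real.log_nonneg hp1)
  linarith [Real.log_two_lt_d9]

end FA.BurgessApplications

end
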