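import Fermat.Agent.Burgess.LeastNonresidue
import Fermat.Agent.BurgessGeneral.PrimitiveRoot

/-!
# The least non-residue of a character

Vinogradov's trick with Burgess's inequality: for every nonprincipal character `χ` modulo a large
prime `p` some prime `q ≤ p ^ (1/(4√e) + η)` has `χ q ≠ 1`.
-/

set_option autoImplicit false

noncomputable section

namespace FA.BurgessApplications

open Finset Filter FA.BurgessGeneral
open scoped Topology

/-- The primes between `p ^ (1/(4√e) + η)` and `p ^ (1/4 + η/3)` have small sum of reciprocals. -/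
theorem eventually_sum_inv_prime_lt_half {η : ℝ} (hη : 0 < η) :
    ∃ t : ℝ, t < 1 / 2 ∧ ∀ᶠ p : ℕ in atTop,
      ∑ q ∈ (Ioc ⌊(p : ℝ) ^ (1 / (4 * Real.sqrt (Real.exp 1)) + η)⌋₊
        ⌈(p : ℝ) ^ (1 / 4 + η / 3)⌉₊).filter Nat.Prime, ((q : ℕ) : ℝ)⁻¹ ≤ t := by
  obtain ⟨s, hs⟩ : ∃ s, s = Real.sqrt (Real.exp 1) := ⟨_, rfl⟩
  have hse : s = Real.exp (1 / 2) := hs.trans (Real.exp_half 1).symm
  have hs1 : 1 < s := hse ▸ Real.one_lt_exp_iff.2 (by norm_num)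
  have hs' : 0 < 1 - 1 / s := by
    rw [sub_pos, div_lt_one (by linarith)]
    exact hs1
  obtain ⟨θ, hθ⟩ : ∃ θ, θ = 1 / (4 * s) + η := ⟨_, rfl⟩
  rw [← hs, ← hθ]
  have hθ0 : 0 < θ := hθ ▸ by positivity
  -- `(1 / 4 + η) / θ < √e`
  have hden : 1 / (4 * s) + 2 * η / 3 ≤ θ - η / 3 * (1 - 1 / s) := by
    have : 0 ≤ 1 / s := by positivity
    have := mul_le_mul_of_nonneg_left (show 1 - 1 / s ≤ 1 by linarith) (show 0 ≤ η / 3 by linarith)
    linarith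
  have hden0 : 0 < θ - η / 3 * (1 - 1 / s) := lt_of_lt_of_le (by positivity) hden
  obtain ⟨c, hc⟩ : ∃ c, c = (1 / 4 + 2 * η / 3) / (θ - η / 3 * (1 - 1 / s)) := ⟨_, rfl⟩
  have hc0 : 0 < c := hc ▸ div_pos (by linarith) hden0
  have hc1 : c < s := by
    rw [hc, div_lt_iff₀ hden0]
    have h1 : s * (1 / (4 * s)) = 1 / 4 := by field_simp
    have h2 := mul_le_mul_of_nonneg_left hden (show 0 ≤ s by linarith)
    have h3 := mul_lt_mul_of_pos_right hs1 (show 0 < 2 * η / 3 by linarith)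
    linarith
  obtain ⟨t, ht0, htlt, htc⟩ : ∃ t : ℝ, 0 ≤ t ∧ t < 1 / 2 ∧ c ≤ Real.exp t := by
    refine ⟨max 0 (Real.log c), le_max_left _ _, max_lt (by norm_num) ?_,
      (Real.exp_log hc0).ge.trans (Real.exp_le_exp.2 (le_max_right _ _))⟩
    rwa [← Real.exp_lt_exp, Real.exp_log hc0, ← hse]
  obtain ⟨L₀, hL₀⟩ := Burgess.exists_sum_inv_prime_le ht0 (show 0 < (1 / 2 - t) / 2 by linarith)
  refine ⟨t + (1 / 2 - t) / 2, by linarith, ?_⟩
  have hlogp : Tendsto (fun p : ℕ => Real.log p) atTop atTop :=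
    Real.tendsto_log_atTop.comp tendsto_natCast_atTop_atTop
  filter_upwards [hlogp.eventually_ge_atTop (|L₀| / θ + 2 / θ),
    hlogp.eventually_ge_atTop (3 / (η * (1 - 1 / s))), hlogp.eventually_ge_atTop (3 / η),
    eventually_ge_atTop 1] with p hlog1 hlog2 hlog3 hp
  have hp1 : (1 : ℝ) ≤ p := Nat.one_le_cast.2 hp
  have hp0 : (0 : ℝ) < p := by linarith
  obtain ⟨y, hy⟩ : ∃ y, y = ⌊(p : ℝ) ^ θ⌋₊ := ⟨_, rfl⟩
  obtain ⟨N, hN⟩ : ∃ N, N = ⌈(p : ℝ) ^ (1 / 4 + η / 3)⌉₊ := ⟨_, rfl⟩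
  obtain ⟨ℓ, hℓ⟩ : ∃ ℓ, ℓ = Real.log (p : ℝ) := ⟨_, rfl⟩
  rw [← hℓ] at hlog1 hlog2 hlog3
  rw [← hy, ← hN]
  have hy1 : θ * ℓ - 1 ≤ Real.log y := by
    have hx1 := Real.one_le_rpow hp1 hθ0.le
    have h := Nat.lt_floor_add_one ((p : ℝ) ^ θ)
    rw [← hy] at h
    have hyr : (1 : ℝ) ≤ y := Nat.one_le_cast.2 (hy ▸ Nat.le_floor (by exact_mod_cast hx1))
    have h2 := Real.log_le_log (Real.rpow_pos_of_pos hp0 θ)
      (show (p : ℝ) ^ θ ≤ 2 * y by linarith)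
    rw [Real.log_rpow hp0, Real.log_mul two_ne_zero (by linarith), ← hℓ] at h2
    linarith [Real.log_two_lt_d9]
  have hN2 : Real.log N ≤ (1 / 4 + η / 3) * ℓ + 1 := by
    have h1 : (1 : ℝ) ≤ (p : ℝ) ^ (1 / 4 + η / 3) := Real.one_le_rpow hp1 (by linarith)
    have h0 : (p : ℝ) ^ (1 / 4 + η / 3) ≤ N := hN ▸ Nat.le_ceil _
    have h2 := (Nat.ceil_lt_add_one (zero_le_one.trans h1)).le
    rw [← hN] at h2
    have h3 := Real.log_le_log (show (0 : ℝ) < N by linarith)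
      (show (N : ℝ) ≤ 2 * (p : ℝ) ^ (1 / 4 + η / 3) by linarith)
    rw [Real.log_mul two_ne_zero (by linarith), Real.log_rpow hp0, ← hℓ] at h3
    linarith [Real.log_two_lt_d9]
  refine hL₀ y N ?_ ?_
  · rw [← add_div, div_le_iff₀ hθ0] at hlog1
    linarith [le_abs_self L₀]
  rw [div_le_iff₀ hη] at hlog3
  rw [div_le_iff₀ (mul_pos hη hs')] at hlog2
  refine hN2.trans (le_trans ?_ (mul_le_mul_of_nonneg_right htc (Real.log_natCast_nonneg y)))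
  refine le_trans ?_ (mul_le_mul_of_nonneg_left (show (θ - η / 3 * (1 - 1 / s)) * ℓ ≤ Real.log y
    by linarith) hc0.le)
  rw [hc, ← mul_assoc, div_mul_cancel₀ _ hden0.ne']
  linarith

variable {p : ℕ} [Fact p.Prime] {χ : MulChar (ZMod p) ℂ}

theorem apply_eq_one_of_smooth {y : ℕ} (hres : ∀ q : ℕ, q.Prime → q ≤ y → χ (q : ZMod p) = 1)
    {n : ℕ} (hn : 0 < n) (hs : ∀ q : ℕ, q.Prime → q ∣ n → q ≤ y) : χ (n : ZMod p) = 1 := by
  induction n using Nat.strong_induction_on with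
  | _ n ih =>
    rcases eq_or_ne n 1 with rfl | h1
    · simp
    obtain ⟨q, hq, m, rfl⟩ := Nat.exists_prime_and_dvd h1
    have hm : 0 < m := Nat.pos_of_mul_pos_left hn
    rw [Nat.cast_mul, map_mul, hres q hq (hs q hq (dvd_mul_right q m)),
      ih m (lt_mul_of_one_lt_left hm hq.one_lt) hm fun l hl hd => hs l hl (hd.mul_left q),
      one_mul]

/-- Vinogradov's trick. -/
theorem le_re_windowSumC {y : ℕ} (N : ℕ)
    (hres : ∀ q : ℕ, q.Prime → q ≤ y → χ (q : ZMod p) = 1) :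
    (N : ℝ) * (1 - 2 * ∑ q ∈ (Ioc y N).filter Nat.Prime, ((q : ℕ) : ℝ)⁻¹) ≤
      (windowSumC χ 0 N).re := by
  classical
  have hsum : ∀ n ∈ Ioc 0 N,
      1 - 2 * ((((Ioc y N).filter Nat.Prime).filter (· ∣ n)).card : ℝ) ≤
        (χ (n : ZMod p)).re := by
    intro n hn
    rw [mem_Ioc] at hn
    rcases Nat.eq_zero_or_pos (((Ioc y N).filter Nat.Prime).filter (· ∣ n)).card with h | h
    · rw [h, Nat.cast_zero, mul_zero, sub_zero, apply_eq_one_of_smooth hres hn.1 fun q hq hd => ?_,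
        Complex.one_re]
      by_contra hqy
      exact Finset.notMem_empty q (card_eq_zero.1 h ▸ mem_filter.2 ⟨mem_filter.2
        ⟨mem_Ioc.2 ⟨not_le.1 hqy, (Nat.le_of_dvd hn.1 hd).trans hn.2⟩, hq⟩, hd⟩)
    · have h1 : (1 : ℝ) ≤ ((((Ioc y N).filter Nat.Prime).filter (· ∣ n)).card : ℕ) :=
        Nat.one_le_cast.2 h
      linarith [(abs_le.1 ((Complex.abs_re_le_norm _).trans
        (CharacterSums.norm_mulChar_le χ (n : ZMod p)))).1]
  rw [windowSumC, zero_add, Complex.re_sum]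
  refine le_trans ?_ (sum_le_sum hsum)
  rw [sum_sub_distrib, sum_const, Nat.card_Ioc, Nat.sub_zero, nsmul_one, mul_sub, mul_one,
    ← mul_sum]
  refine sub_le_sub_left ?_ _
  rw [← mul_assoc, mul_comm (N : ℝ) 2, mul_assoc]
  refine mul_le_mul_of_nonneg_left ?_ two_pos.le
  simp only [card_filter]
  push_cast
  rw [sum_comm, mul_sum]
  refine sum_le_sum fun q _ => ?_
  rw [sum_boole, Nat.Ioc_filter_dvd_card_eq_div, ← div_eq_mul_inv]
  exact Nat.cast_div_le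

/-- **The least non-residue of a character.** -/
theorem eventually_least_nonresidue_char {η : ℝ} (hη : 0 < η) :
    ∀ᶠ p : ℕ in atTop, ∀ [Fact p.Prime] (χ : MulChar (ZMod p) ℂ), χ ≠ 1 →
      ∃ q : ℕ, q.Prime ∧ (q : ℝ) ≤ (p : ℝ) ^ (1 / (4 * Real.sqrt (Real.exp 1)) + η) ∧
        q < p ∧ χ (q : ZMod p) ≠ 1 := by
  obtain ⟨η', hη', hη1, hle⟩ : ∃ η', 0 < η' ∧ η' ≤ 1 / 2 ∧ η' ≤ η :=
    ⟨min η (1 / 2), lt_min hη one_half_pos, min_le_right _ _, min_le_left _ _⟩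
  obtain ⟨θ, hθ⟩ : ∃ θ, θ = 1 / (4 * Real.sqrt (Real.exp 1)) + η' := ⟨_, rfl⟩
  have hθ0 : 0 ≤ θ := hθ ▸ by positivity
  have hθ1 : θ < 1 := by
    have h : 1 < Real.sqrt (Real.exp 1) :=
      Real.lt_sqrt_of_sq_lt (by simp)
    have : 1 / (4 * Real.sqrt (Real.exp 1)) < 1 / 4 :=
      one_div_lt_one_div_of_lt (by norm_num) (by linarith)
    linarith
  obtain ⟨t, ht, hsum⟩ := eventually_sum_inv_prime_lt_half hη'
  obtain ⟨κ, hκ, hsave⟩ := eventually_norm_windowSumC_le (show 0 < η' / 3 by linarith)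
  have hpow : ∀ᶠ p : ℕ in atTop, (p : ℝ) ^ (-κ) < 1 - 2 * t :=
    ((tendsto_rpow_neg_atTop hκ).comp tendsto_natCast_atTop_atTop).eventually
      (eventually_lt_nhds (by linarith))
  filter_upwards [hsum, hsave, hpow, eventually_ge_atTop 2] with p hsum hsave hpow hp2
  intro _ χ hχ
  have hp1 : (1 : ℝ) ≤ p := Nat.one_le_cast.2 (by omega)
  have hp0 : (0 : ℝ) < p := by linarith
  rw [← hθ] at hsum
  have hyp : (p : ℝ) ^ θ < p := by
    conv_rhs => rw [← Real.rpow_one (p : ℝ)]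
    exact Real.rpow_lt_rpow_of_exponent_lt (Nat.one_lt_cast.2 hp2) hθ1
  by_cases hex : ∃ q : ℕ, q.Prime ∧ q ≤ ⌊(p : ℝ) ^ θ⌋₊ ∧ χ (q : ZMod p) ≠ 1
  · obtain ⟨q, hq, hqy, hne⟩ := hex
    have hqθ : (q : ℝ) ≤ (p : ℝ) ^ θ :=
      (Nat.cast_le.2 hqy).trans (Nat.floor_le (Real.rpow_nonneg hp0.le θ))
    refine ⟨q, hq, hqθ.trans (Real.rpow_le_rpow_of_exponent_le hp1 (by linarith)), ?_, hne⟩
    exact_mod_cast hqθ.trans_lt hyp
  exfalso
  push Not at hex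
  obtain ⟨N, hN⟩ : ∃ N, N = ⌈(p : ℝ) ^ (1 / 4 + η' / 3)⌉₊ := ⟨_, rfl⟩
  rw [← hN] at hsum
  have hNle : (p : ℝ) ^ (1 / 4 + η' / 3) ≤ N := hN ▸ Nat.le_ceil _
  have hN0 : (0 : ℝ) < N := lt_of_lt_of_le (Real.rpow_pos_of_pos hp0 _) hNle
  have h1 := (le_re_windowSumC N hex).trans
    ((Complex.re_le_norm _).trans (hsave χ hχ 0 N hNle))
  have h2 := mul_le_mul_of_nonneg_left hsum hN0.le
  have h3 := mul_lt_mul_of_pos_left hpow hN0
  linarith

/-- **The least `d`-th power non-residue.** -/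
theorem eventually_least_nonPower {η : ℝ} (hη : 0 < η) :
    ∀ᶠ p : ℕ in atTop, p.Prime → ∀ d : ℕ, 1 < Nat.gcd d (p - 1) →
      ∃ q : ℕ, q.Prime ∧ (q : ℝ) ≤ (p : ℝ) ^ (1 / (4 * Real.sqrt (Real.exp 1)) + η) ∧
        ∀ x : ZMod p, x ^ d ≠ q := by
  filter_upwards [eventually_least_nonresidue_char hη] with p hp hprime d hd
  have := Fact.mk hprime
  obtain ⟨g, hg⟩ : ∃ g, g = Nat.gcd d (p - 1) := ⟨_, rfl⟩
  rw [← hg] at hd
  obtain ⟨χ, hord⟩ := MulChar.exists_mulChar_orderOf (ZMod p)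
    (show g ∣ Fintype.card (ZMod p) - 1 by rw [ZMod.card, hg]; exact Nat.gcd_dvd_right _ _)
    (Complex.isPrimitiveRoot_exp g (by omega))
  have hχ : χ ≠ 1 := by
    rintro rfl
    rw [orderOf_one] at hord
    omega
  obtain ⟨q, hq, hqθ, hqp, hne⟩ := hp χ hχ
  refine ⟨q, hq, hqθ, fun x hx => hne ?_⟩
  have hq0 : (q : ZMod p) ≠ 0 := Burgess.natCast_ne_zero_of_lt hq.one_le hqp
  rcases ne_or_eq d 0 with hd0 | rfl
  · have hx0 : x ≠ 0 := fun h => hq0 (by rw [← hx, h, zero_pow hd0])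
    have hpow : χ ^ d = 1 :=
      orderOf_dvd_iff_pow_eq_one.1 (hord ▸ hg ▸ Nat.gcd_dvd_left _ _)
    rw [← hx, map_pow, ← MulChar.pow_apply' χ hd0, hpow, MulChar.one_apply (Ne.isUnit hx0)]
  · rw [← hx, pow_zero, map_one]

end FA.BurgessApplications

end
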