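import Fermat.Agent.BurgessGeneral.PrimitiveRoot
import Fermat.Agent.Tau.SiegelBound

/-!
# The partial summation integral in three ranges

`L(s, χ) = s ∫_1^∞ S(t) t ^ (-s-1)`, `S` the partial sums: bounds on `S` in a middle range
`(X, p]` and beyond `p` give bounds for `L(s, χ)`.
-/

set_option autoImplicit false

noncomputable section

namespace FA.BurgessApplications

open MeasureTheory FA.BurgessGeneral
open FA.Siegel (charSum tail)

variable {p : ℕ} [Fact p.Prime] {χ : DirichletCharacter ℂ p}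

theorem charSum_eq_windowSumC (t : ℝ) : charSum χ t = windowSumC χ 0 ⌊t⌋₊ := by
  rw [charSum, windowSumC, zero_add]
  rfl

omit [Fact p.Prime] in
/-- Bounds for the partial sums bound the piece of the integral over `(a, b]`. -/
theorem norm_piece_le {s : ℂ} {a b B e : ℝ} (ha : 0 < a) (hab : a ≤ b)
    (hS : ∀ t ∈ Set.Ioc a b, ‖charSum χ t‖ ≤ B * t ^ e) (he : e - (s.re + 1) = -1) :
    ‖∫ t in Set.Ioc a b, charSum χ t * (t : ℂ) ^ (-(s + 1))‖ ≤ B * Real.log (b / a) := by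
  have hi : IntegrableOn (fun t : ℝ => t⁻¹) (Set.Ioc a b) :=
    ((continuousOn_id.inv₀ fun t ht => (ha.trans_le ht.1).ne').integrableOn_Icc).mono_set
      Set.Ioc_subset_Icc_self
  refine (norm_integral_le_of_norm_le (hi.const_mul B) ?_).trans (le_of_eq ?_)
  · filter_upwards [ae_restrict_mem measurableSet_Ioc] with t ht
    have ht0 : 0 < t := ha.trans ht.1
    rw [FA.Siegel.norm_integrand ht0]
    refine (mul_le_mul_of_nonneg_right (hS t ht) (Real.rpow_nonneg ht0.le _)).trans (le_of_eq ?_)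
    rw [mul_assoc, ← Real.rpow_add ht0, ← sub_eq_add_neg, he, Real.rpow_neg_one]
  · rw [integral_const_mul, ← intervalIntegral.integral_of_le hab,
      integral_inv_of_pos ha (ha.trans_le hab)]

omit [Fact p.Prime] in
/-- The piece of the integral beyond `a`, for bounded partial sums. -/
theorem norm_beyond_le {s : ℂ} {a B : ℝ} (ha : 0 < a) (hs : 0 < s.re)
    (hS : ∀ t : ℝ, a < t → ‖charSum χ t‖ ≤ B) :
    ‖∫ t in Set.Ioi a, charSum χ t * (t : ℂ) ^ (-(s + 1))‖ ≤ B * (a ^ (-s.re) / s.re) := by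
  refine (norm_integral_le_of_norm_le ((integrableOn_Ioi_rpow_of_lt (a := -(s.re + 1))
    (by linarith) ha).const_mul B) ?_).trans (le_of_eq ?_)
  · filter_upwards [ae_restrict_mem measurableSet_Ioi] with t ht
    rw [FA.Siegel.norm_integrand (ha.trans ht)]
    exact mul_le_mul_of_nonneg_right (hS t ht) (Real.rpow_nonneg (ha.trans ht).le _)
  · rw [integral_const_mul, integral_Ioi_rpow_of_lt (by linarith) ha,
      show -(s.re + 1) + 1 = -s.re by ring, neg_div_neg_eq]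

/-- The integral in the three ranges `(1, X]`, `(X, p]`, `(p, ∞)`. -/
theorem norm_tail_le_three (hχ : χ ≠ 1) {s : ℂ} (hs : 0 < s.re) {X : ℝ} (hX : 1 ≤ X)
    (hXp : X ≤ p) {B₁ B₂ B₃ : ℝ}
    (h₁ : ‖∫ t in Set.Ioc 1 X, charSum χ t * (t : ℂ) ^ (-(s + 1))‖ ≤ B₁)
    (h₂ : ‖∫ t in Set.Ioc X p, charSum χ t * (t : ℂ) ^ (-(s + 1))‖ ≤ B₂)
    (h₃ : ‖∫ t in Set.Ioi (p : ℝ), charSum χ t * (t : ℂ) ^ (-(s + 1))‖ ≤ B₃) :
    ‖tail χ s‖ ≤ B₁ + B₂ + B₃ := by
  have hint := FA.Siegel.integrable_integrand hχ hs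
  have hi : IntegrableOn (fun t : ℝ => charSum χ t * (t : ℂ) ^ (-(s + 1))) (Set.Ioi X) :=
    hint.mono_set (Set.Ioi_subset_Ioi hX)
  rw [tail, ← Set.Ioc_union_Ioi_eq_Ioi hX, setIntegral_union (Set.Ioc_disjoint_Ioi le_rfl)
    measurableSet_Ioi (hint.mono_set Set.Ioc_subset_Ioi_self) hi,
    ← Set.Ioc_union_Ioi_eq_Ioi hXp, setIntegral_union (Set.Ioc_disjoint_Ioi le_rfl)
    measurableSet_Ioi (hi.mono_set Set.Ioc_subset_Ioi_self)
    (hi.mono_set (Set.Ioi_subset_Ioi hXp)), add_assoc]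
  exact (norm_add_le _ _).trans (add_le_add h₁ ((norm_add_le _ _).trans (add_le_add h₂ h₃)))

end FA.BurgessApplications

end
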